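/-
S48lib / X1 / Equiv / QRedOf  (helper2)

**The bridge from the output of blocks P5/P6 to lead's reduction context `ES.QRed`.**
For a `q`-model `F = ℚ̄ · F₀ ⊆ ℚ̄((q))`, `Fk ⊆ k((q))` and a Gauss datum `G` on `(F, Fk)`:

* `int_mem_of_compat`, `int_red_of_compat` : if `G` is the coefficientwise reduction of
  `q`-expansions (helper8's `Igusa.SeriesCompat G incl incl`) then `A`-integral `q`-expansions lie in
  `G.O` and reduce coefficientwise — the fields `int_mem`, `int_red` of `QRed` (lead's (R1));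
* `gen_of_frame` : if moreover `G` has a FRAME `(j; θ₁, …, θₙ)` consisting of `A`-integral
  `q`-expansions (`WFrame.IsFrameFamily G j θ`, the output of the Igusa step), then every `f ∈ F^×`
  is `c · f · b = a` with `c ∈ ℚ̄^×` and `a, b ∈ F` `A`-integral with nonzero reduction — the field
  `gen` of `QRed` (lead's (R2));
* `qRedOf` : the assembled `QRed`.
-/
import Mathlib
import Fermat.Agent.S48lib.X1.ES.QRed
import Fermat.Agent.S48lib.X1.Igusa.GaussBridge
import Fermat.Agent.S18lib.Weak.IntegralRed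
import Fermat.Agent.S18lib.Weak.PolyAdapter
import Fermat.Agent.S18lib.Weak.InertFrame

set_option autoImplicit false
set_option linter.unusedSectionVars false
set_option linter.style.haveILetI false

noncomputable section

namespace Fermat.Agent.S48lib.X1.Equiv

open AlgebraicCurve ModularCurve Polynomial Fermat.Agent.S18lib
open Fermat.Agent.S48lib.X1.ES Fermat.Agent.S48lib.X1.Igusa

local notation "Qb" => AlgebraicClosure ℚ

variable {A : ValuationSubring Qb} {F₀ : IntermediateField ℚ (LaurentSeries ℚ)}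
  {Fk : IntermediateField (IsLocalRing.ResidueField A) (LaurentSeries (IsLocalRing.ResidueField A))}

local notation "kA" => IsLocalRing.ResidueField A

variable (F₀) in
/-- the inclusion `F ⊆ ℚ̄((q))` -/
def inclQ : ↥(laurentBaseChange Qb F₀) →+* LaurentSeries Qb := (laurentBaseChange Qb F₀).val.toRingHom

variable (Fk) in
/-- the inclusion `Fk ⊆ k((q))` -/
def inclK : ↥Fk →+* LaurentSeries kA := Fk.val.toRingHom

@[simp] theorem inclQ_apply (x : ↥(laurentBaseChange Qb F₀)) : inclQ F₀ x = (x : LaurentSeries Qb) := rfl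

@[simp] theorem inclK_apply (x : ↥Fk) : inclK Fk x = (x : LaurentSeries kA) := rfl

/-! ### (R1): integral expansions -/

section Compat

variable (G : GaussDatum A ↥(laurentBaseChange Qb F₀) ↥Fk) (h : SeriesCompat G (inclQ F₀) (inclK Fk))

include h

/-- `A`-integral `q`-expansions lie in the Gauss ring. -/
theorem int_mem_of_compat (b : LaurentSeries A) (hb : V.toL A b ∈ laurentBaseChange Qb F₀) :
    (⟨V.toL A b, hb⟩ : ↥(laurentBaseChange Qb F₀)) ∈ G.O :=
  (h.mem_O_iff _).2 (toL_mem_fracSubring b)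

/-- the reduction of an `A`-integral `q`-expansion is its coefficientwise reduction. -/
theorem int_red_of_compat (b : LaurentSeries A) (hb : V.toL A b ∈ laurentBaseChange Qb F₀) :
    ((G.redF (⟨V.toL A b, hb⟩ : ↥(laurentBaseChange Qb F₀)) : ↥Fk) : LaurentSeries kA) = V.toK A b := by
  have hO := int_mem_of_compat G h b hb
  rw [G.redF_of_mem hO]
  have h1 := h.fracRed_eq hO
  rw [inclK_apply] at h1
  rw [← h1, ← fracRed_toL b]
  rfl

end Compat

/-! ### polynomials with integral coefficients in an integral series -/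

/-- a polynomial with coefficients in `A`, evaluated at an `A`-integral series, is an `A`-integral
series. -/
theorem exists_toL_eq_aeval (x : LaurentSeries A) (p : Qb[X]) (hp : ∀ a, p.coeff a ∈ A) :
    ∃ s : LaurentSeries A, V.toL A s = aeval (V.toL A x) p := by
  classical
  have hsub : (↑p.coeffs : Set Qb) ⊆ (A.toSubring : Set Qb) := by
    intro c hc
    obtain ⟨n, -, rfl⟩ := Polynomial.mem_coeffs_iff.mp hc
    exact hp n
  set pA : A.toSubring[X] := p.toSubring A.toSubring hsub with hpA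
  have hmap : pA.map A.toSubring.subtype = p := Polynomial.map_toSubring p A.toSubring hsub
  refine ⟨pA.eval₂ (HahnSeries.C : A →+* LaurentSeries A) x, ?_⟩
  rw [Polynomial.hom_eval₂, aeval_def, ← hmap, Polynomial.eval₂_map]
  congr 1
  refine RingHom.ext fun a => ?_
  show V.toL A (HahnSeries.C a) = algebraMap Qb (LaurentSeries Qb) (A.toSubring.subtype a)
  exact V.toL_constA a

/-! ### the subring of `A`-integral expansions -/

variable (A F₀) in
/-- the elements of `F = ℚ̄ · F₀` whose `q`-expansion has coefficients in `A`. -/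
def intSubring : Subring ↥(laurentBaseChange Qb F₀) where
  carrier := {x | ∃ s : LaurentSeries A, V.toL A s = (x : LaurentSeries Qb)}
  mul_mem' := by
    rintro x y ⟨s, hs⟩ ⟨t, ht⟩
    exact ⟨s * t, by rw [map_mul, hs, ht]; rfl⟩
  one_mem' := ⟨1, by rw [map_one]; rfl⟩
  add_mem' := by
    rintro x y ⟨s, hs⟩ ⟨t, ht⟩
    exact ⟨s + t, by rw [map_add, hs, ht]; rfl⟩
  zero_mem' := ⟨0, by rw [map_zero]; rfl⟩
  neg_mem' := by
    rintro x ⟨s, hs⟩
    exact ⟨-s, by rw [map_neg, hs]; rfl⟩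

theorem mem_intSubring {x : ↥(laurentBaseChange Qb F₀)} :
    x ∈ intSubring A F₀ ↔ ∃ s : LaurentSeries A, V.toL A s = (x : LaurentSeries Qb) := Iff.rfl

theorem elemL_mem_intSubring (b : LaurentSeries A) (hb : V.toL A b ∈ laurentBaseChange Qb F₀) :
    (⟨V.toL A b, hb⟩ : ↥(laurentBaseChange Qb F₀)) ∈ intSubring A F₀ := ⟨b, rfl⟩

/-! ### (R2): the generation property from a frame of integral expansions -/

section Frame

variable (G : GaussDatum A ↥(laurentBaseChange Qb F₀) ↥Fk)
  (h : SeriesCompat G (inclQ F₀) (inclK Fk))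
  {y : ↥(laurentBaseChange Qb F₀)} (hy : (y : LaurentSeries Qb) = jqModC Qb)
  {n : ℕ} {θ : Fin n → ↥(laurentBaseChange Qb F₀)}
  (hθ : ∀ i, θ i ∈ intSubring A F₀)
  (hfr : WFrame.IsFrameFamily G y θ)

include hfr in
/-- a polynomial in `y` lying in `G.O` has coefficients in `A`. -/
theorem coeff_mem_of_aeval_mem (q : Qb[X]) (hq : aeval y q ∈ G.O) (a : ℕ) :
    q.coeff a ∈ A := by
  classical
  let i₀ : Fin n := ⟨0, hfr.n_pos⟩
  have hsum : ∑ i, aeval y ((fun i => if i = i₀ then q else 0) i) * θ i ∈ G.O := by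
    rw [Finset.sum_eq_single i₀]
    · simp only [if_true]
      exact G.O.mul_mem _ _ hq (hfr.θ_mem i₀)
    · intro i _ hi
      simp [hi]
    · intro hi
      exact absurd (Finset.mem_univ _) hi
  have := hfr.coeff_mem_of_sum_aeval_mem (fun i => if i = i₀ then q else 0) hsum i₀ a
  simpa using this

include hy in
/-- a polynomial in `j` with coefficients in `A` is an `A`-integral series of `F`. -/
theorem exists_series_of_aeval (q : Qb[X]) (hq : ∀ a, q.coeff a ∈ A) :
    ∃ s : LaurentSeries A,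
      V.toL A s = ((aeval y q : ↥(laurentBaseChange Qb F₀)) : LaurentSeries Qb) := by
  obtain ⟨s, hs⟩ := exists_toL_eq_aeval (jqModC A) q hq
  refine ⟨s, ?_⟩
  rw [hs, QRed.toL_jqModC, ← hy]
  have := Polynomial.aeval_algHom_apply (laurentBaseChange Qb F₀).val y q
  exact this

include h hy hθ hfr in
/-- **(R2)** every nonzero `f ∈ F` is `c · f · b = a` with `a, b ∈ F` `A`-integral expansions with
nonzero reduction. -/
theorem gen_of_frame (f : ↥(laurentBaseChange Qb F₀)) (hf : f ≠ 0) : ∃ c : Qb, c ≠ 0 ∧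
    ∃ (a b : LaurentSeries A) (ha : V.toL A a ∈ laurentBaseChange Qb F₀)
      (hb : V.toL A b ∈ laurentBaseChange Qb F₀), V.toK A a ≠ 0 ∧ V.toK A b ≠ 0 ∧
      algebraMap Qb ↥(laurentBaseChange Qb F₀) c * f * ⟨V.toL A b, hb⟩ = ⟨V.toL A a, ha⟩ := by
  classical
  obtain ⟨c, hc, u, hu⟩ := G.exists_const_mul_isUnit f hf
  set g : ↥(laurentBaseChange Qb F₀) := algebraMap Qb ↥(laurentBaseChange Qb F₀) c * f with hg
  have hgO : g ∈ G.O := by rw [hu]; exact (u : G.O).2
  have hgred : G.redF g ≠ 0 := by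
    rw [G.redF_of_mem hgO]
    have : (⟨g, hgO⟩ : G.O) = (u : G.O) := Subtype.ext hu
    rw [this]
    exact G.red_unit_ne_zero u
  obtain ⟨q, p, hq, hgq⟩ := hfr.exists_repr g
  obtain ⟨c', hc', hcd⟩ := G.exists_const_mul_redF_ne_zero (hfr.aeval_ne_zero hq)
  set q' : Qb[X] := C c' * q with hq'
  set p' : Fin n → Qb[X] := fun i => C c' * p i with hp'
  have hd : aeval y q' = algebraMap Qb ↥(laurentBaseChange Qb F₀) c' * aeval y q := by
    rw [hq', map_mul, aeval_C]
  have hdne : G.redF (aeval y q') ≠ 0 := by rw [hd]; exact hcd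
  have hdO : aeval y q' ∈ G.O := G.mem_of_redF_ne_zero hdne
  have hgq' : g * aeval y q' = ∑ i, aeval y (p' i) * θ i := by
    rw [hd, mul_left_comm, hgq, Finset.mul_sum]
    refine Finset.sum_congr rfl fun i _ => ?_
    rw [hp', map_mul, aeval_C, mul_assoc]
  have hsum : ∑ i, aeval y (p' i) * θ i ∈ G.O := by
    rw [← hgq']; exact G.O.mul_mem _ _ hgO hdO
  have hsumred : G.redF (∑ i, aeval y (p' i) * θ i) ≠ 0 := by
    rw [← hgq', G.redF_mul hgO hdO]
    exact mul_ne_zero hgred hdne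
  have hcoeffp : ∀ i a, (p' i).coeff a ∈ A := fun i a =>
    hfr.coeff_mem_of_sum_aeval_mem p' hsum i a
  have hcoeffq : ∀ a, q'.coeff a ∈ A := coeff_mem_of_aeval_mem G hfr q' hdO
  -- the denominator as an integral series
  obtain ⟨b, hb⟩ := exists_series_of_aeval hy q' hcoeffq
  have hbmem : V.toL A b ∈ laurentBaseChange Qb F₀ := by rw [hb]; exact (aeval y q').2
  have hbeq : (⟨V.toL A b, hbmem⟩ : ↥(laurentBaseChange Qb F₀)) = aeval y q' := Subtype.ext hb
  -- the numerator as an integral series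
  have hnum : ∀ i, ∃ s : LaurentSeries A,
      V.toL A s = ((aeval y (p' i) : ↥(laurentBaseChange Qb F₀)) : LaurentSeries Qb) := fun i =>
    exists_series_of_aeval hy (p' i) (hcoeffp i)
  choose s hs using hnum
  choose t ht using hθ
  set a : LaurentSeries A := ∑ i, s i * t i with ha
  have haL : V.toL A a =
      ((∑ i, aeval y (p' i) * θ i : ↥(laurentBaseChange Qb F₀)) : LaurentSeries Qb) := by
    rw [ha, map_sum]
    have : ((∑ i, aeval y (p' i) * θ i : ↥(laurentBaseChange Qb F₀)) : LaurentSeries Qb) =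
        ∑ i, ((aeval y (p' i) * θ i : ↥(laurentBaseChange Qb F₀)) : LaurentSeries Qb) :=
      map_sum (laurentBaseChange Qb F₀).val _ _
    rw [this]
    refine Finset.sum_congr rfl fun i _ => ?_
    rw [map_mul, hs i, ht i]
    rfl
  have hamem : V.toL A a ∈ laurentBaseChange Qb F₀ := by
    rw [haL]; exact (∑ i, aeval y (p' i) * θ i : ↥(laurentBaseChange Qb F₀)).2
  have haeq : (⟨V.toL A a, hamem⟩ : ↥(laurentBaseChange Qb F₀)) = ∑ i, aeval y (p' i) * θ i :=
    Subtype.ext haL
  refine ⟨c, hc, a, b, hamem, hbmem, ?_, ?_, ?_⟩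
  · intro h0
    apply hsumred
    have := int_red_of_compat G h a hamem
    rw [h0] at this
    rw [← haeq]
    exact Subtype.ext this
  · intro h0
    apply hdne
    have := int_red_of_compat G h b hbmem
    rw [h0] at this
    rw [← hbeq]
    exact Subtype.ext this
  · rw [hbeq, haeq, ← hgq']

include hfr in
/-- **the integral frame representation**: every `x ∈ G.O` satisfies
`x · Q(y) = Σ P_i(y) θ_i` with `Q, P_i ∈ A[X]` and `Q(y)` a unit of `G.O`. -/
theorem exists_poly_repr_of_mem_O (x : ↥(laurentBaseChange Qb F₀)) (hx : x ∈ G.O) :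
    ∃ (q : Qb[X]) (p : Fin n → Qb[X]), (∀ a, q.coeff a ∈ A) ∧ (∀ i a, (p i).coeff a ∈ A) ∧
      G.redF (aeval y q) ≠ 0 ∧ x * aeval y q = ∑ i, aeval y (p i) * θ i := by
  classical
  obtain ⟨q, p, hq, hxq⟩ := hfr.exists_repr x
  obtain ⟨c', hc', hcd⟩ := G.exists_const_mul_redF_ne_zero (hfr.aeval_ne_zero hq)
  set q' : Qb[X] := C c' * q with hq'
  set p' : Fin n → Qb[X] := fun i => C c' * p i with hp'
  have hd : aeval y q' = algebraMap Qb ↥(laurentBaseChange Qb F₀) c' * aeval y q := by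
    rw [hq', map_mul, aeval_C]
  have hdne : G.redF (aeval y q') ≠ 0 := by rw [hd]; exact hcd
  have hdO : aeval y q' ∈ G.O := G.mem_of_redF_ne_zero hdne
  have hxq' : x * aeval y q' = ∑ i, aeval y (p' i) * θ i := by
    rw [hd, mul_left_comm, hxq, Finset.mul_sum]
    refine Finset.sum_congr rfl fun i _ => ?_
    rw [hp', map_mul, aeval_C, mul_assoc]
  have hsum : ∑ i, aeval y (p' i) * θ i ∈ G.O := by
    rw [← hxq']; exact G.O.mul_mem _ _ hx hdO
  exact ⟨q', p', coeff_mem_of_aeval_mem G hfr q' hdO,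
    fun i a => hfr.coeff_mem_of_sum_aeval_mem p' hsum i a, hdne, hxq'⟩

include hy in
/-- a polynomial in `j` with coefficients in `A` lies in `intSubring`. -/
theorem aeval_mem_intSubring (q : Qb[X]) (hq : ∀ a, q.coeff a ∈ A) :
    aeval y q ∈ intSubring A F₀ :=
  exists_series_of_aeval hy q hq

include hy hfr in
/-- **the frame property (F)** in the shape of lead's `ES/Dia`: every `x ∈ G.O` is
`Σ c_i θ_i` where each `c_i = a_i / b` is a quotient of `A`-integral expansions (polynomials in `j`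
with coefficients in `A`) fixed by every `ℚ̄`-algebra endomorphism fixing `j`, `b` with nonzero
reduction. -/
theorem exists_base_repr_of_mem_O (x : ↥(laurentBaseChange Qb F₀)) (hx : x ∈ G.O) :
    ∃ c : Fin n → ↥(laurentBaseChange Qb F₀), x = ∑ i, c i * θ i ∧
      ∀ i, ∃ a b : ↥(laurentBaseChange Qb F₀), a ∈ intSubring A F₀ ∧ b ∈ intSubring A F₀ ∧
        G.redF b ≠ 0 ∧ c i * b = a ∧
        ∀ φ : ↥(laurentBaseChange Qb F₀) →ₐ[Qb] ↥(laurentBaseChange Qb F₀), φ y = y →
          φ a = a ∧ φ b = b := by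
  obtain ⟨q, p, hq, hp, hne, hxq⟩ := exists_poly_repr_of_mem_O G hfr x hx
  have hb0 : aeval y q ≠ 0 := by
    intro h0
    rw [h0, G.redF_zero] at hne
    exact hne rfl
  refine ⟨fun i => aeval y (p i) / aeval y q, ?_, fun i => ?_⟩
  · have h1 : x = (∑ i, aeval y (p i) * θ i) / aeval y q := by
      rw [← hxq, mul_div_cancel_right₀ _ hb0]
    rw [h1, Finset.sum_div]
    refine Finset.sum_congr rfl fun i _ => ?_
    ring
  · refine ⟨aeval y (p i), aeval y q, aeval_mem_intSubring hy _ (hp i),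
      aeval_mem_intSubring hy _ hq, hne, div_mul_cancel₀ _ hb0, fun φ hφ => ⟨?_, ?_⟩⟩
    · rw [← Polynomial.aeval_algHom_apply, hφ]
    · rw [← Polynomial.aeval_algHom_apply, hφ]

end Frame

/-! ### the degree of `j` -/

/-- `deg (j)_∞ = deg (j̄)_∞` from `[F : ℚ̄(j)] = [Fk : k(j̄)]` (both sides finite and separable). -/
theorem degree_polesOf_eq_of_finrank_eq {K₁ F₁ K₂ F₂ : Type*} [Field K₁] [IsAlgClosed K₁]
    [Field F₁] [Algebra K₁ F₁] [HasPrincipalDivisors K₁ F₁] [Field K₂] [IsAlgClosed K₂] [Field F₂]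
    [Algebra K₂ F₂] [HasPrincipalDivisors K₂ F₂] {x₁ : F₁} {x₂ : F₂}
    (h₁ : Transcendental K₁ x₁) (h₂ : Transcendental K₂ x₂)
    [FiniteDimensional (IntermediateField.adjoin K₁ {x₁}) F₁]
    [Algebra.IsSeparable (IntermediateField.adjoin K₁ {x₁}) F₁]
    [FiniteDimensional (IntermediateField.adjoin K₂ {x₂}) F₂]
    [Algebra.IsSeparable (IntermediateField.adjoin K₂ {x₂}) F₂]
    (hd : Module.finrank (IntermediateField.adjoin K₁ {x₁}) F₁ =
      Module.finrank (IntermediateField.adjoin K₂ {x₂}) F₂) :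
    Divisor.degree (polesOf (K := K₁) x₁) = Divisor.degree (polesOf (K := K₂) x₂) := by
  rw [degree_polesOf_eq_finrank_adjoin K₁ h₁, degree_polesOf_eq_finrank_adjoin K₂ h₂, hd]

/-! ### the assembled reduction context -/

/-- **`QRed` from the output of P5/P6**: a reduction datum which is the coefficientwise reduction
of `q`-expansions, with a frame `(j; θ)` of `A`-integral expansions, equal genus, preserved degree
of `j`, and `Fk` stable under the coefficientwise automorphisms of `k`. -/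
def qRedOf (D : RedDatum A ↥(laurentBaseChange Qb F₀) ↥Fk)
    (h : SeriesCompat D.toGaussDatum (inclQ F₀) (inclK Fk))
    (hj : jqModC Qb ∈ laurentBaseChange Qb F₀)
    {n : ℕ} {θ : Fin n → ↥(laurentBaseChange Qb F₀)}
    (hθ : ∀ i, θ i ∈ intSubring A F₀)
    (hfr : WFrame.IsFrameFamily D.toGaussDatum (⟨jqModC Qb, hj⟩ : ↥(laurentBaseChange Qb F₀)) θ)
    (g : ℕ) (hF : IsCurveOfGenus Qb ↥(laurentBaseChange Qb F₀) g)
    (hFk : IsCurveOfGenus (IsLocalRing.ResidueField A) ↥Fk g)
    (hstab : ∀ (τ : IsLocalRing.ResidueField A ≃+* IsLocalRing.ResidueField A)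
      (x : LaurentSeries (IsLocalRing.ResidueField A)), x ∈ Fk →
        coeffMap (τ : IsLocalRing.ResidueField A →+* IsLocalRing.ResidueField A) x ∈ Fk)
    (hdeg : haveI := hF.hasPrincipalDivisors; haveI := hFk.hasPrincipalDivisors
      Divisor.degree (polesOf (K := Qb) (⟨jqModC Qb, hj⟩ : ↥(laurentBaseChange Qb F₀))) =
        Divisor.degree (polesOf (K := IsLocalRing.ResidueField A)
          (D.redF (⟨jqModC Qb, hj⟩ : ↥(laurentBaseChange Qb F₀))))) :
    QRed A F₀ Fk where
  D := D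
  hOB := (D.toGaussDatum_hasOrthonormalBases_iff).1 hfr.hasOrthonormalBases
  genus := g
  hF := hF
  hFk := hFk
  int_mem := int_mem_of_compat D.toGaussDatum h
  int_red := int_red_of_compat D.toGaussDatum h
  gen := gen_of_frame D.toGaussDatum h rfl hθ hfr
  stable := hstab
  hj := hj
  hdeg := hdeg

@[simp] theorem qRedOf_D (D : RedDatum A ↥(laurentBaseChange Qb F₀) ↥Fk)
    (h : SeriesCompat D.toGaussDatum (inclQ F₀) (inclK Fk))
    (hj : jqModC Qb ∈ laurentBaseChange Qb F₀)
    {n : ℕ} {θ : Fin n → ↥(laurentBaseChange Qb F₀)}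
    (hθ : ∀ i, θ i ∈ intSubring A F₀)
    (hfr : WFrame.IsFrameFamily D.toGaussDatum (⟨jqModC Qb, hj⟩ : ↥(laurentBaseChange Qb F₀)) θ)
    (g : ℕ) (hF : IsCurveOfGenus Qb ↥(laurentBaseChange Qb F₀) g)
    (hFk : IsCurveOfGenus (IsLocalRing.ResidueField A) ↥Fk g) hstab hdeg :
    (qRedOf D h hj hθ hfr g hF hFk hstab hdeg).D = D := rfl

/-- **`QRed` from a Gauss datum `G` with a frame + a reduction datum extending it** (the output
shape of `S37lib.B2.exists_redDatum`: `D.toGaussDatum = G`). -/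
theorem exists_qRed_of_gauss (G : GaussDatum A ↥(laurentBaseChange Qb F₀) ↥Fk)
    (h : SeriesCompat G (inclQ F₀) (inclK Fk))
    (hj : jqModC Qb ∈ laurentBaseChange Qb F₀)
    {n : ℕ} {θ : Fin n → ↥(laurentBaseChange Qb F₀)}
    (hθ : ∀ i, θ i ∈ intSubring A F₀)
    (hfr : WFrame.IsFrameFamily G (⟨jqModC Qb, hj⟩ : ↥(laurentBaseChange Qb F₀)) θ)
    (g : ℕ) (hF : IsCurveOfGenus Qb ↥(laurentBaseChange Qb F₀) g)
    (hFk : IsCurveOfGenus (IsLocalRing.ResidueField A) ↥Fk g)
    (hstab : ∀ (τ : IsLocalRing.ResidueField A ≃+* IsLocalRing.ResidueField A)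
      (x : LaurentSeries (IsLocalRing.ResidueField A)), x ∈ Fk →
        coeffMap (τ : IsLocalRing.ResidueField A →+* IsLocalRing.ResidueField A) x ∈ Fk)
    (hdeg : haveI := hF.hasPrincipalDivisors; haveI := hFk.hasPrincipalDivisors
      Divisor.degree (polesOf (K := Qb) (⟨jqModC Qb, hj⟩ : ↥(laurentBaseChange Qb F₀))) =
        Divisor.degree (polesOf (K := IsLocalRing.ResidueField A)
          (G.redF (⟨jqModC Qb, hj⟩ : ↥(laurentBaseChange Qb F₀)))))
    (D : RedDatum A ↥(laurentBaseChange Qb F₀) ↥Fk) (hDG : D.toGaussDatum = G) :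
    ∃ C : QRed A F₀ Fk, C.D = D ∧ C.genus = g := by
  subst hDG
  exact ⟨qRedOf D h hj hθ hfr g hF hFk hstab hdeg, rfl, rfl⟩

/-- the same with the frame over any `y ∈ F` whose expansion is `j(q)`. -/
theorem exists_qRed_of_gauss' (G : GaussDatum A ↥(laurentBaseChange Qb F₀) ↥Fk)
    (h : SeriesCompat G (inclQ F₀) (inclK Fk))
    {y : ↥(laurentBaseChange Qb F₀)} (hy : (y : LaurentSeries Qb) = jqModC Qb)
    {n : ℕ} {θ : Fin n → ↥(laurentBaseChange Qb F₀)}
    (hθ : ∀ i, θ i ∈ intSubring A F₀)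
    (hfr : WFrame.IsFrameFamily G y θ)
    (g : ℕ) (hF : IsCurveOfGenus Qb ↥(laurentBaseChange Qb F₀) g)
    (hFk : IsCurveOfGenus (IsLocalRing.ResidueField A) ↥Fk g)
    (hstab : ∀ (τ : IsLocalRing.ResidueField A ≃+* IsLocalRing.ResidueField A)
      (x : LaurentSeries (IsLocalRing.ResidueField A)), x ∈ Fk →
        coeffMap (τ : IsLocalRing.ResidueField A →+* IsLocalRing.ResidueField A) x ∈ Fk)
    (hdeg : haveI := hF.hasPrincipalDivisors; haveI := hFk.hasPrincipalDivisors
      Divisor.degree (polesOf (K := Qb) y) =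
        Divisor.degree (polesOf (K := IsLocalRing.ResidueField A) (G.redF y)))
    (D : RedDatum A ↥(laurentBaseChange Qb F₀) ↥Fk) (hDG : D.toGaussDatum = G) :
    ∃ C : QRed A F₀ Fk, C.D = D ∧ C.genus = g := by
  have hj : jqModC Qb ∈ laurentBaseChange Qb F₀ := hy ▸ y.2
  have hyeq : y = ⟨jqModC Qb, hj⟩ := Subtype.ext hy
  subst hyeq
  exact exists_qRed_of_gauss G h hj hθ hfr g hF hFk hstab hdeg D hDG

/-! ### the inert case (output of the Igusa step) -/

section Inert

variable {F₁ : Type*} [Field F₁] [Algebra Qb F₁]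
  {Fk₁ : Type*} [Field Fk₁] [Algebra (IsLocalRing.ResidueField A) Fk₁]
  [Algebra F₁ ↥(laurentBaseChange Qb F₀)] [IsScalarTower Qb F₁ ↥(laurentBaseChange Qb F₀)]
  [Algebra Fk₁ ↥Fk] [IsScalarTower (IsLocalRing.ResidueField A) Fk₁ ↥Fk]

/-- the transported frame `θ_i t^j` of an inert extension consists of `A`-integral expansions if
the `θ_i` and the generator `t` do. -/
theorem frameFam_mem_intSubring {G₁ : GaussDatum A F₁ Fk₁}
    (I : InertInput G₁ ↥(laurentBaseChange Qb F₀) ↥Fk) {n : ℕ} (θ₁ : Fin n → F₁)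
    (hθ₁ : ∀ i, algebraMap F₁ ↥(laurentBaseChange Qb F₀) (θ₁ i) ∈ intSubring A F₀)
    (ht : I.t ∈ intSubring A F₀) (m : Fin (n * I.d)) :
    I.frameFam θ₁ m ∈ intSubring A F₀ :=
  (intSubring A F₀).mul_mem (hθ₁ _) ((intSubring A F₀).pow_mem ht _)

/-- **`QRed` from the Igusa step**: an inert input `I` over a base datum `G₁` with a frame
`(y₁; θ₁)` of integral expansions (level one: `(j; 1)`), generator `t = τ_(0,1)` integral,
`I.datum` = coefficientwise reduction, and a reduction datum extending `I.datum`. -/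
theorem exists_qRed_of_inert {G₁ : GaussDatum A F₁ Fk₁}
    (I : InertInput G₁ ↥(laurentBaseChange Qb F₀) ↥Fk)
    {y₁ : F₁} {n : ℕ} {θ₁ : Fin n → F₁} (h₁ : WFrame.IsFrameFamily G₁ y₁ θ₁)
    (hy₁ : ((algebraMap F₁ ↥(laurentBaseChange Qb F₀) y₁ : ↥(laurentBaseChange Qb F₀)) :
      LaurentSeries Qb) = jqModC Qb)
    (hθ₁ : ∀ i, algebraMap F₁ ↥(laurentBaseChange Qb F₀) (θ₁ i) ∈ intSubring A F₀)
    (ht : I.t ∈ intSubring A F₀)
    (h : SeriesCompat I.datum (inclQ F₀) (inclK Fk))
    (g : ℕ) (hF : IsCurveOfGenus Qb ↥(laurentBaseChange Qb F₀) g)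
    (hFk : IsCurveOfGenus (IsLocalRing.ResidueField A) ↥Fk g)
    (hstab : ∀ (τ : IsLocalRing.ResidueField A ≃+* IsLocalRing.ResidueField A)
      (x : LaurentSeries (IsLocalRing.ResidueField A)), x ∈ Fk →
        coeffMap (τ : IsLocalRing.ResidueField A →+* IsLocalRing.ResidueField A) x ∈ Fk)
    (hdeg : haveI := hF.hasPrincipalDivisors; haveI := hFk.hasPrincipalDivisors
      Divisor.degree (polesOf (K := Qb) (algebraMap F₁ ↥(laurentBaseChange Qb F₀) y₁)) =
        Divisor.degree (polesOf (K := IsLocalRing.ResidueField A)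
          (I.datum.redF (algebraMap F₁ ↥(laurentBaseChange Qb F₀) y₁))))
    (D : RedDatum A ↥(laurentBaseChange Qb F₀) ↥Fk) (hDG : D.toGaussDatum = I.datum) :
    ∃ C : QRed A F₀ Fk, C.D = D ∧ C.genus = g :=
  exists_qRed_of_gauss' I.datum h hy₁ (frameFam_mem_intSubring I θ₁ hθ₁ ht)
    (I.isFrameFamily h₁) g hF hFk hstab hdeg D hDG

end Inert

end Fermat.Agent.S48lib.X1.Equiv
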