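/-
S48lib / X1 / Equiv / SimpleExt  (helper2)

Generic stage (i) of the inert input on the residue side: a field generated by a root `t` of a
monic irreducible polynomial `P` has the power basis `1, t, …, t^{deg P - 1}` and `minpoly = P`.

* absolute form (`powerBasisOfRoot`): `κ⟮t⟯ = ⊤` in a `κ`-algebra `F`;
* relative form inside a big field `Ω` (`powerBasisOfLESup`): `E ≤ F'` intermediate fields of
  `Ω / K`, `F' ≤ E ⊔ K⟮t⟯`, `t ∈ F'` a root of `P ∈ E[X]` — the shape of
  `E = k(j̄) = FRes A 1`, `F' = k(j̄)(τ̄_(0,1)) ⊆ k((q))`.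
-/
import Mathlib

set_option autoImplicit false
set_option linter.style.haveILetI false

noncomputable section

namespace Fermat.Agent.S48lib.X1.Equiv

open IntermediateField Polynomial Module

/-! ### absolute form -/

section Abs

variable {κ F : Type*} [Field κ] [Field F] [Algebra κ F]

theorem minpoly_eq_of_root {P : κ[X]} (hmon : P.Monic) (hirr : Irreducible P) {t : F}
    (ht : aeval t P = 0) : minpoly κ t = P :=
  (minpoly.eq_of_irreducible_of_monic hirr ht hmon).symm

theorem isIntegral_of_root {P : κ[X]} (hmon : P.Monic) {t : F} (ht : aeval t P = 0) :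
    IsIntegral κ t := ⟨P, hmon, ht⟩

/-- the power basis `1, t, …, t^{d-1}` of `F = κ(t)` -/
def powerBasisOfRoot {P : κ[X]} (hmon : P.Monic) {t : F} (ht : aeval t P = 0)
    (hgen : κ⟮t⟯ = ⊤) : PowerBasis κ F :=
  (IntermediateField.adjoin.powerBasis (isIntegral_of_root hmon ht)).map
    ((IntermediateField.equivOfEq hgen).trans IntermediateField.topEquiv)

@[simp] theorem powerBasisOfRoot_gen {P : κ[X]} (hmon : P.Monic) {t : F} (ht : aeval t P = 0)
    (hgen : κ⟮t⟯ = ⊤) : (powerBasisOfRoot hmon ht hgen).gen = t := rfl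

theorem powerBasisOfRoot_dim {P : κ[X]} (hmon : P.Monic) (hirr : Irreducible P) {t : F}
    (ht : aeval t P = 0) (hgen : κ⟮t⟯ = ⊤) : (powerBasisOfRoot hmon ht hgen).dim = P.natDegree := by
  rw [powerBasisOfRoot, PowerBasis.map_dim, IntermediateField.adjoin.powerBasis_dim,
    minpoly_eq_of_root hmon hirr ht]

theorem minpoly_powerBasisOfRoot_gen {P : κ[X]} (hmon : P.Monic) (hirr : Irreducible P) {t : F}
    (ht : aeval t P = 0) (hgen : κ⟮t⟯ = ⊤) :
    minpoly κ (powerBasisOfRoot hmon ht hgen).gen = P := by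
  rw [powerBasisOfRoot_gen]
  exact minpoly_eq_of_root hmon hirr ht

theorem finrank_of_root {P : κ[X]} (hmon : P.Monic) (hirr : Irreducible P) {t : F}
    (ht : aeval t P = 0) (hgen : κ⟮t⟯ = ⊤) : finrank κ F = P.natDegree := by
  rw [(powerBasisOfRoot hmon ht hgen).finrank, powerBasisOfRoot_dim hmon hirr ht hgen]

theorem finiteDimensional_of_root {P : κ[X]} (hmon : P.Monic) {t : F}
    (ht : aeval t P = 0) (hgen : κ⟮t⟯ = ⊤) : FiniteDimensional κ F :=
  (powerBasisOfRoot hmon ht hgen).finite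

theorem isSeparable_of_root {P : κ[X]} (hmon : P.Monic) (hirr : Irreducible P)
    (hsep : P.Separable) {t : F} (ht : aeval t P = 0) (hgen : κ⟮t⟯ = ⊤) :
    Algebra.IsSeparable κ F := by
  rw [← separableClosure.eq_top_iff, eq_top_iff, ← hgen, IntermediateField.adjoin_simple_le_iff]
  refine mem_separableClosure_iff.2 ?_
  show (minpoly κ t).Separable
  rw [minpoly_eq_of_root hmon hirr ht]
  exact hsep

end Abs

/-! ### relative form inside a big field -/

section Rel

variable {K Ω : Type*} [Field K] [Field Ω] [Algebra K Ω]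
variable {E F' : IntermediateField K Ω}

/-- the algebra structure of the larger intermediate field over the smaller one -/
@[instance_reducible]
def algebraOfLE (hle : E ≤ F') : Algebra ↥E ↥F' := (IntermediateField.inclusion hle).toRingHom.toAlgebra

theorem algebraMap_ofLE_apply (hle : E ≤ F') (x : ↥E) :
    letI := algebraOfLE hle
    algebraMap ↥E ↥F' x = IntermediateField.inclusion hle x := rfl

theorem coe_algebraMap_ofLE (hle : E ≤ F') (x : ↥E) :
    letI := algebraOfLE hle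
    ((algebraMap ↥E ↥F' x : ↥F') : Ω) = (x : Ω) := rfl

theorem isScalarTower_ofLE (hle : E ≤ F') :
    letI := algebraOfLE hle
    IsScalarTower K ↥E ↥F' :=
  letI := algebraOfLE hle
  IsScalarTower.of_algebraMap_eq fun c => ((IntermediateField.inclusion hle).commutes c).symm

theorem isScalarTower_ofLE_top (hle : E ≤ F') :
    letI := algebraOfLE hle
    IsScalarTower ↥E ↥F' Ω :=
  letI := algebraOfLE hle
  IsScalarTower.of_algebraMap_eq fun _ => rfl

/-- **generation**: if `F' ≤ E ⊔ K⟮t⟯` then `F' = E(t)` as an extension of `E`. -/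
theorem adjoin_eq_top_of_le_sup (hle : E ≤ F') {t : Ω} (ht : t ∈ F') (hgen : F' ≤ E ⊔ K⟮t⟯) :
    letI := algebraOfLE hle
    (↥E)⟮(⟨t, ht⟩ : ↥F')⟯ = ⊤ := by
  letI := algebraOfLE hle
  haveI := isScalarTower_ofLE hle
  rw [eq_top_iff]
  intro x _
  have ht' : (⟨t, ht⟩ : ↥F') ∈ (↥E)⟮(⟨t, ht⟩ : ↥F')⟯ :=
    IntermediateField.mem_adjoin_simple_self ↥E _
  have hE : ∀ e : ↥E, algebraMap ↥E ↥F' e ∈ (↥E)⟮(⟨t, ht⟩ : ↥F')⟯ := fun e =>
    IntermediateField.algebraMap_mem _ e
  generalize (↥E)⟮(⟨t, ht⟩ : ↥F')⟯ = N at ht' hE ⊢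
  have h1 : E ≤ (N.restrictScalars K).map F'.val := by
    intro e he
    exact (IntermediateField.mem_map _).2 ⟨algebraMap ↥E ↥F' ⟨e, he⟩, hE _, rfl⟩
  have h2 : K⟮t⟯ ≤ (N.restrictScalars K).map F'.val := by
    rw [IntermediateField.adjoin_simple_le_iff]
    exact (IntermediateField.mem_map _).2 ⟨⟨t, ht⟩, ht', rfl⟩
  have h3 : (x : Ω) ∈ (N.restrictScalars K).map F'.val := (hgen.trans (sup_le h1 h2)) x.2
  obtain ⟨y, hy, hyx⟩ := (IntermediateField.mem_map _).1 h3
  have : y = x := Subtype.ext hyx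
  rw [← this]
  exact hy

variable (hle : E ≤ F') {t : Ω} (ht : t ∈ F') {P : (↥E)[X]}

include ht in
theorem aeval_ofLE_eq_zero (hroot : eval₂ (algebraMap ↥E Ω) t P = 0) :
    letI := algebraOfLE hle
    aeval (⟨t, ht⟩ : ↥F') P = 0 := by
  letI := algebraOfLE hle
  apply Subtype.ext
  rw [ZeroMemClass.coe_zero, ← hroot, aeval_def]
  exact Polynomial.hom_eval₂ P (algebraMap ↥E ↥F') F'.val.toRingHom ⟨t, ht⟩

/-- **the residue-side power basis**: `F' = E(t)`, `t` a root of the monic `P ∈ E[X]`. -/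
def powerBasisOfLESup (hgen : F' ≤ E ⊔ K⟮t⟯) (hmon : P.Monic)
    (hroot : eval₂ (algebraMap ↥E Ω) t P = 0) :
    letI := algebraOfLE hle
    PowerBasis ↥E ↥F' :=
  letI := algebraOfLE hle
  powerBasisOfRoot hmon (aeval_ofLE_eq_zero hle ht hroot) (adjoin_eq_top_of_le_sup hle ht hgen)

@[simp] theorem powerBasisOfLESup_gen (hgen : F' ≤ E ⊔ K⟮t⟯) (hmon : P.Monic)
    (hroot : eval₂ (algebraMap ↥E Ω) t P = 0) :
    letI := algebraOfLE hle
    (powerBasisOfLESup hle ht hgen hmon hroot).gen = ⟨t, ht⟩ := rfl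

theorem powerBasisOfLESup_dim (hgen : F' ≤ E ⊔ K⟮t⟯) (hmon : P.Monic) (hirr : Irreducible P)
    (hroot : eval₂ (algebraMap ↥E Ω) t P = 0) :
    letI := algebraOfLE hle
    (powerBasisOfLESup hle ht hgen hmon hroot).dim = P.natDegree :=
  letI := algebraOfLE hle
  powerBasisOfRoot_dim hmon hirr (aeval_ofLE_eq_zero hle ht hroot)
    (adjoin_eq_top_of_le_sup hle ht hgen)

theorem minpoly_powerBasisOfLESup_gen (hgen : F' ≤ E ⊔ K⟮t⟯) (hmon : P.Monic)
    (hirr : Irreducible P) (hroot : eval₂ (algebraMap ↥E Ω) t P = 0) :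
    letI := algebraOfLE hle
    minpoly ↥E (powerBasisOfLESup hle ht hgen hmon hroot).gen = P :=
  letI := algebraOfLE hle
  minpoly_powerBasisOfRoot_gen hmon hirr (aeval_ofLE_eq_zero hle ht hroot)
    (adjoin_eq_top_of_le_sup hle ht hgen)

include ht in
theorem isSeparable_ofLESup (hgen : F' ≤ E ⊔ K⟮t⟯) (hmon : P.Monic) (hirr : Irreducible P)
    (hsep : P.Separable) (hroot : eval₂ (algebraMap ↥E Ω) t P = 0) :
    letI := algebraOfLE hle
    Algebra.IsSeparable ↥E ↥F' :=
  letI := algebraOfLE hle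
  isSeparable_of_root hmon hirr hsep (aeval_ofLE_eq_zero hle ht hroot)
    (adjoin_eq_top_of_le_sup hle ht hgen)

include ht in
theorem finrank_ofLESup (hgen : F' ≤ E ⊔ K⟮t⟯) (hmon : P.Monic) (hirr : Irreducible P)
    (hroot : eval₂ (algebraMap ↥E Ω) t P = 0) :
    letI := algebraOfLE hle
    finrank ↥E ↥F' = P.natDegree :=
  letI := algebraOfLE hle
  finrank_of_root hmon hirr (aeval_ofLE_eq_zero hle ht hroot)
    (adjoin_eq_top_of_le_sup hle ht hgen)

end Rel

end Fermat.Agent.S48lib.X1.Equiv
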