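/-
S48lib / X1 / Equiv / TowerDeg  (helper2)

Generic bookkeeping for a function field `F` presented as a simple extension `E(t)` of a rational
function field `E ≅ K(x)` (`E = FBar 1` or `FRes A 1`, `F = FBar₁(M)` or `FRes₁ A M`): degree,
finiteness and separability of `F / K(x)` (as the intermediate field `K⟮x⟯` of `F / K`, the shape
consumed by `S18lib`'s `degree_polesOf_eq_finrank_adjoin`, `RRgen`, `Red.exists_redDatum_F1_mu4`)
from the corresponding facts for `F / E`.
-/
import Mathlib

set_option autoImplicit false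

noncomputable section

namespace Fermat.Agent.S48lib.X1.Equiv

open IntermediateField Module

variable {K E F : Type*} [Field K] [Field E] [Field F] [Algebra K E] [Algebra E F] [Algebra K F]
  [IsScalarTower K E F]

/-- if `E = K(e)` then the image of `E` in `F` is `K(e)` (as an intermediate field of `F / K`). -/
theorem fieldRange_eq_adjoin_of_top {e : E} (he : K⟮e⟯ = ⊤) :
    (IsScalarTower.toAlgHom K E F).fieldRange = K⟮algebraMap E F e⟯ := by
  rw [AlgHom.fieldRange_eq_map, ← he, IntermediateField.adjoin_map, Set.image_singleton]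
  rfl

section Range

variable {x : F}

theorem algebraMap_mem_adjoin_of_fieldRange
    (h : (IsScalarTower.toAlgHom K E F).fieldRange = K⟮x⟯) (a : E) :
    algebraMap E F a ∈ K⟮x⟯ := by
  rw [← h]
  exact ⟨a, rfl⟩

/-- the ring isomorphism `E ≃ K⟮x⟯` -/
def equivAdjoinOfFieldRange (h : (IsScalarTower.toAlgHom K E F).fieldRange = K⟮x⟯) :
    E ≃+* K⟮x⟯ :=
  RingEquiv.ofBijective
    ((algebraMap E F).codRestrict K⟮x⟯ (algebraMap_mem_adjoin_of_fieldRange h))
    ⟨fun a b hab => (algebraMap E F).injective (congrArg Subtype.val hab), fun y => by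
      have hy : (y : F) ∈ (IsScalarTower.toAlgHom K E F).fieldRange := by rw [h]; exact y.2
      obtain ⟨a, ha⟩ := hy
      exact ⟨a, Subtype.ext ha⟩⟩

theorem coe_equivAdjoinOfFieldRange
    (h : (IsScalarTower.toAlgHom K E F).fieldRange = K⟮x⟯) (a : E) :
    ((equivAdjoinOfFieldRange h a : K⟮x⟯) : F) = algebraMap E F a := rfl

theorem finrank_adjoin_eq_of_fieldRange
    (h : (IsScalarTower.toAlgHom K E F).fieldRange = K⟮x⟯) : finrank K⟮x⟯ F = finrank E F :=
  (Algebra.finrank_eq_of_equiv_equiv (equivAdjoinOfFieldRange h) (RingEquiv.refl F)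
    (by ext a; rfl)).symm

theorem finiteDimensional_adjoin_of_fieldRange
    (h : (IsScalarTower.toAlgHom K E F).fieldRange = K⟮x⟯) [FiniteDimensional E F] :
    FiniteDimensional K⟮x⟯ F := by
  have h1 : 0 < finrank E F := finrank_pos
  rw [← finrank_adjoin_eq_of_fieldRange h] at h1
  exact FiniteDimensional.of_finrank_pos h1

theorem isSeparable_adjoin_of_fieldRange
    (h : (IsScalarTower.toAlgHom K E F).fieldRange = K⟮x⟯) [Algebra.IsSeparable E F] :
    Algebra.IsSeparable K⟮x⟯ F :=
  Algebra.IsSeparable.of_equiv_equiv (equivAdjoinOfFieldRange h) (RingEquiv.refl F)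
    (by ext a; rfl)

end Range

/-- a simple extension with separable minimal polynomial is separable. -/
theorem isSeparable_of_powerBasis (pb : PowerBasis E F) (hsep : (minpoly E pb.gen).Separable) :
    Algebra.IsSeparable E F := by
  rw [← separableClosure.eq_top_iff, eq_top_iff,
    ← IntermediateField.adjoin_eq_top_of_algebra E {pb.gen} pb.adjoin_gen_eq_top,
    IntermediateField.adjoin_simple_le_iff]
  exact mem_separableClosure_iff.2 hsep

/-- **the package for `F = E(t)`, `E = K(e)`**: `F / K(x)` (`x` the image of `e`) is finite of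
degree `pb.dim` and separable as soon as the minimal polynomial of `t` over `E` is separable. -/
theorem adjoin_package_of_powerBasis (pb : PowerBasis E F)
    (hsep : (minpoly E pb.gen).Separable) {e : E} (he : K⟮e⟯ = ⊤) {x : F}
    (hx : algebraMap E F e = x) :
    FiniteDimensional K⟮x⟯ F ∧ Algebra.IsSeparable K⟮x⟯ F ∧ finrank K⟮x⟯ F = pb.dim := by
  subst hx
  have h := fieldRange_eq_adjoin_of_top (K := K) (F := F) he
  haveI : FiniteDimensional E F := pb.finite
  haveI : Algebra.IsSeparable E F := isSeparable_of_powerBasis pb hsep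
  exact ⟨finiteDimensional_adjoin_of_fieldRange h, isSeparable_adjoin_of_fieldRange h,
    (finrank_adjoin_eq_of_fieldRange h).trans pb.finrank⟩

end Fermat.Agent.S48lib.X1.Equiv
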