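/-
S48lib / X1 / Equiv / ResPB  (helper2)

Stages (i)+(ii) of the inert input of `X₁(M)` on the residue side, and its assembly.

* `FResT A M := k(j̄)(τ̄_(0,1)) ⊆ k((q))` (`k(j̄) = FRes A 1`), with the `FRes A 1`-algebra
  structure `algebraResT`;
* `P0 hA hpM hM ∈ B₀[X]`: the chosen monic lift of `minpoly ℚ̄(j) τ_(0,1)` (helper3's
  `exists_P0_red_tauBar`);
* `pbResT hA hpM hM : PowerBasis (FRes A 1) (FResT A M)` with generator `τ̄_(0,1)`, minimal
  polynomial `P̄₀`, dimension `[SL₂(ℤ) : ±Γ₁(M)]`; separability of `FResT A M / FRes A 1`;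
* `inertInputT hA hpM hM : InertInput (baseDatum A hA) (FB1 M) (FResT A M)`, its datum `datumT`
  and `seriesCompat_datumT` (coefficientwise reduction, via helper8's `seriesCompat_inert`).
-/
import Mathlib
import Fermat.Agent.S48lib.X1.Equiv.SimpleExt
import Fermat.Agent.S48lib.X1.Equiv.TowerDeg
import Fermat.Agent.S48lib.X1.Equiv.QRedOf
import Fermat.Agent.S48lib.X1.IgusaInst.RedRel
import Fermat.Agent.S48lib.X1.Igusa.InertSeries

set_option autoImplicit false
set_option linter.unusedSectionVars false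
set_option linter.style.haveILetI false

noncomputable section

namespace Fermat.Agent.S48lib.X1.Equiv

open ModularCurve HahnSeries Polynomial IntermediateField Module
open Fermat.Agent.S18lib
open Fermat.Agent.S18lib.V (toL toK)
open Fermat.Agent.S48lib.X1 Fermat.Agent.S48lib.X1.Igusa
open scoped MatrixGroups

local notation "Qb" => AlgebraicClosure ℚ

section Field

variable (A : ValuationSubring Qb) (M : ℕ) [NeZero M]

local notation "kA" => IsLocalRing.ResidueField A

/-- `k(j̄)(τ̄_(0,1)) ⊆ k((q))` -/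
def FResT : IntermediateField kA (LaurentSeries kA) :=
  modularFunctionFieldFullC kA 1 ⊔ kA⟮tauqL kA M (zRes A M) 1⟯

theorem fullC_one_le_FResT : modularFunctionFieldFullC kA 1 ≤ FResT A M := le_sup_left

theorem tauqL_mem_FResT : tauqL kA M (zRes A M) 1 ∈ FResT A M :=
  (le_sup_right : kA⟮tauqL kA M (zRes A M) 1⟯ ≤ FResT A M) (mem_adjoin_simple_self _ _)

/-- `k(j̄) = FRes A 1` is generated by `j̄` -/
theorem fullC_one_eq : modularFunctionFieldFullC kA 1 = kA⟮jqModC kA⟯ := by
  rw [modularFunctionFieldFullC]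
  congr 1
  ext x
  simp only [divisorExpansionsC, Set.mem_ofPred_eq, Set.mem_singleton_iff]
  constructor
  · rintro ⟨d, hd, hd1, rfl⟩
    have : d = 1 := Nat.dvd_one.mp hd1
    subst this
    exact qExpand_one_apply _
  · rintro rfl
    exact ⟨1, inferInstance, dvd_rfl, (qExpand_one_apply _).symm⟩

theorem jqModC_mem_fullC_one : jqModC kA ∈ modularFunctionFieldFullC kA 1 := by
  rw [fullC_one_eq]
  exact mem_adjoin_simple_self _ _

theorem fullC_one_le_FRes1 : modularFunctionFieldFullC kA 1 ≤ FRes1 A M := by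
  rw [fullC_one_eq, adjoin_simple_le_iff]
  exact jqModC_mem_FRes1 A M

theorem FResT_le_FRes1 (hM : 1 < M) : FResT A M ≤ FRes1 A M :=
  sup_le (fullC_one_le_FRes1 A M) (by
    rw [adjoin_simple_le_iff]
    exact tauqL_mem_FRes1 A M (not_dvd_one hM))

/-- `τ̄_(0,1)` as an element of `FResT A M` -/
def tauResT : ↥(FResT A M) := ⟨tauqL kA M (zRes A M) 1, tauqL_mem_FResT A M⟩

/-- `j̄` as an element of `FRes A 1` -/
def jResOne : FRes A 1 := ⟨jqModC kA, jqModC_mem_fullC_one A⟩

/-- `j̄` as an element of `FResT A M` -/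
def jResT : ↥(FResT A M) := ⟨jqModC kA, fullC_one_le_FResT A M (jqModC_mem_fullC_one A)⟩

@[simp] theorem coe_tauResT :
    ((tauResT A M : ↥(FResT A M)) : LaurentSeries kA) = tauqL kA M (zRes A M) 1 := rfl

@[simp] theorem coe_jResT : ((jResT A M : ↥(FResT A M)) : LaurentSeries kA) = jqModC kA := rfl

@[simp] theorem coe_jResOne : ((jResOne A : FRes A 1) : LaurentSeries kA) = jqModC kA := rfl

/-- the `k(j̄)`-algebra structure of `k(j̄)(τ̄)` -/
@[instance_reducible]
def algebraResT : Algebra (FRes A 1) ↥(FResT A M) := algebraOfLE (fullC_one_le_FResT A M)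

/-- shortcut instance (the default search times out) -/
@[instance_reducible]
def moduleResT : Module (FRes A 1) ↥(FResT A M) := (algebraResT A M).toModule

attribute [local instance] algebraResT moduleResT

theorem coe_algebraMap_ResT (x : FRes A 1) :
    ((algebraMap (FRes A 1) ↥(FResT A M) x : ↥(FResT A M)) : LaurentSeries kA) =
      (x : LaurentSeries kA) :=
  coe_algebraMap_ofLE (fullC_one_le_FResT A M) x

theorem algebraMap_jResOne : algebraMap (FRes A 1) ↥(FResT A M) (jResOne A) = jResT A M :=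
  Subtype.ext (coe_algebraMap_ResT A M (jResOne A))

theorem isScalarTower_ResT : IsScalarTower kA (FRes A 1) ↥(FResT A M) :=
  isScalarTower_ofLE (fullC_one_le_FResT A M)

/-- `FRes A 1 = k(j̄)` (inside `FRes A 1`) -/
theorem adjoin_jResOne_eq_top : (kA⟮jResOne A⟯ : IntermediateField kA (FRes A 1)) = ⊤ := by
  rw [eq_top_iff]
  intro x _
  have hx : (x : LaurentSeries kA) ∈
      (kA⟮jResOne A⟯ : IntermediateField kA (FRes A 1)).map
        (modularFunctionFieldFullC kA 1).val := by
    rw [IntermediateField.adjoin_map, Set.image_singleton]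
    exact (fullC_one_eq A).le x.2
  obtain ⟨y, hy, hyx⟩ := (IntermediateField.mem_map _).1 hx
  have : y = x := Subtype.ext hyx
  rw [← this]
  exact hy

end Field

/-! ### the lifted minimal polynomial, the residue power basis, the inert input -/

section Inert

variable {A : ValuationSubring Qb} {M : ℕ} [NeZero M] {p : ℕ} [Fact p.Prime]
  (hA : A.LiesOverPrime p) (hpM : ¬ p ∣ M) (hM : 1 < M)

local notation "kA" => IsLocalRing.ResidueField A

attribute [local instance] Igusa.algebraF1 algebraResT moduleResT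

/-- the chosen monic lift `P₀ ∈ B₀[X]` of the minimal polynomial of `τ_(0,1)` over `ℚ̄(j)` -/
def P0 : (baseDatum A hA).O[X] := Classical.choose (exists_P0_red_tauBar A hA hpM hM)

theorem P0_monic : (P0 hA hpM hM).Monic :=
  (Classical.choose_spec (exists_P0_red_tauBar A hA hpM hM)).1

theorem P0_map_subtype :
    (P0 hA hpM hM).map (baseDatum A hA).O.subtype = minpoly (FBar 1) (tauBar hM) :=
  (Classical.choose_spec (exists_P0_red_tauBar A hA hpM hM)).2.1

theorem P0_natDegree :
    (P0 hA hpM hM).natDegree = Fintype.card (SL(2, ℤ) ⧸ Wp.pmGamma1 M) :=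
  (Classical.choose_spec (exists_P0_red_tauBar A hA hpM hM)).2.2.1

theorem P0_red_irreducible : Irreducible ((P0 hA hpM hM).map (baseDatum A hA).red) :=
  (Classical.choose_spec (exists_P0_red_tauBar A hA hpM hM)).2.2.2.1

theorem P0_red_separable : ((P0 hA hpM hM).map (baseDatum A hA).red).Separable :=
  (Classical.choose_spec (exists_P0_red_tauBar A hA hpM hM)).2.2.2.2.1

theorem P0_red_monic : ((P0 hA hpM hM).map (baseDatum A hA).red).Monic :=
  (P0_monic hA hpM hM).map _

theorem P0_red_natDegree :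
    ((P0 hA hpM hM).map (baseDatum A hA).red).natDegree =
      Fintype.card (SL(2, ℤ) ⧸ Wp.pmGamma1 M) := by
  rw [(P0_monic hA hpM hM).natDegree_map, P0_natDegree]

theorem P0_red_root :
    eval₂ (algebraMap (FRes A 1) (LaurentSeries kA)) (tauqL kA M (zRes A M) 1)
      ((P0 hA hpM hM).map (baseDatum A hA).red) = 0 :=
  (Classical.choose_spec (exists_P0_red_tauBar A hA hpM hM)).2.2.2.2.2

/-- **the residue power basis**: `1, τ̄, …, τ̄^{d-1}` of `k(j̄)(τ̄_(0,1))` over `k(j̄)`. -/
def pbResT : PowerBasis (FRes A 1) ↥(FResT A M) :=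
  powerBasisOfLESup (fullC_one_le_FResT A M) (tauqL_mem_FResT A M) le_rfl
    (P0_red_monic hA hpM hM) (P0_red_root hA hpM hM)

@[simp] theorem pbResT_gen : (pbResT hA hpM hM).gen = tauResT A M := rfl

theorem minpoly_pbResT_gen :
    minpoly (FRes A 1) (pbResT hA hpM hM).gen = (P0 hA hpM hM).map (baseDatum A hA).red :=
  minpoly_powerBasisOfLESup_gen (fullC_one_le_FResT A M) (tauqL_mem_FResT A M) le_rfl
    (P0_red_monic hA hpM hM) (P0_red_irreducible hA hpM hM) (P0_red_root hA hpM hM)

theorem minpoly_tauResT :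
    minpoly (FRes A 1) (tauResT A M) = (P0 hA hpM hM).map (baseDatum A hA).red :=
  minpoly_pbResT_gen hA hpM hM

theorem pbResT_dim : (pbResT hA hpM hM).dim = Fintype.card (SL(2, ℤ) ⧸ Wp.pmGamma1 M) :=
  (powerBasisOfLESup_dim (fullC_one_le_FResT A M) (tauqL_mem_FResT A M) le_rfl
    (P0_red_monic hA hpM hM) (P0_red_irreducible hA hpM hM) (P0_red_root hA hpM hM)).trans
    (P0_red_natDegree hA hpM hM)

include hA hpM hM in
/-- `k(j̄)(τ̄_(0,1)) / k(j̄)` is separable -/
theorem isSeparable_ResT : Algebra.IsSeparable (FRes A 1) ↥(FResT A M) :=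
  isSeparable_ofLESup (fullC_one_le_FResT A M) (tauqL_mem_FResT A M) le_rfl
    (P0_red_monic hA hpM hM) (P0_red_irreducible hA hpM hM) (P0_red_separable hA hpM hM)
    (P0_red_root hA hpM hM)

include hA hpM hM in
theorem finrank_ResT :
    finrank (FRes A 1) ↥(FResT A M) = Fintype.card (SL(2, ℤ) ⧸ Wp.pmGamma1 M) :=
  ((pbResT hA hpM hM).finrank).trans (pbResT_dim hA hpM hM)

include hA hpM hM in
/-- **stage (ii)**: `k(j̄)(τ̄) / k⟮j̄⟯` (`k⟮j̄⟯` as an intermediate field of `k(j̄)(τ̄) / k`) is finite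
separable of degree `[SL₂(ℤ) : ±Γ₁(M)]`. -/
theorem adjoin_jResT_package :
    FiniteDimensional kA⟮jResT A M⟯ ↥(FResT A M) ∧
      Algebra.IsSeparable kA⟮jResT A M⟯ ↥(FResT A M) ∧
      finrank kA⟮jResT A M⟯ ↥(FResT A M) = Fintype.card (SL(2, ℤ) ⧸ Wp.pmGamma1 M) := by
  haveI := isScalarTower_ResT A M
  have h := adjoin_package_of_powerBasis (K := kA) (pbResT hA hpM hM)
    (by rw [minpoly_pbResT_gen]; exact P0_red_separable hA hpM hM)
    (adjoin_jResOne_eq_top A) (algebraMap_jResOne A M)
  rwa [pbResT_dim] at h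

/-- **the inert input of `X₁(M)`** over the level-one Gauss datum, with residue field
`k(j̄)(τ̄_(0,1))`. -/
def inertInputT : InertInput (baseDatum A hA) (FB1 M) ↥(FResT A M) where
  pb := pbF1 hM
  pbk := pbResT hA hpM hM
  pO := P0 hA hpM hM
  monic := P0_monic hA hpM hM
  map_subtype := P0_map_subtype hA hpM hM
  map_red := (minpoly_pbResT_gen hA hpM hM).symm

@[simp] theorem inertInputT_t : (inertInputT hA hpM hM).t = tauBar hM := rfl

@[simp] theorem inertInputT_tk : (inertInputT hA hpM hM).tk = tauResT A M := rfl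

theorem inertInputT_d :
    (inertInputT hA hpM hM).d = Fintype.card (SL(2, ℤ) ⧸ Wp.pmGamma1 M) :=
  P0_natDegree hA hpM hM

end Inert

/-! ### the Gauss datum of `X₁(M)` with residue field `k(j̄)(τ̄_(0,1))` -/

section Datum

variable {A : ValuationSubring Qb} {M : ℕ} [NeZero M] {p : ℕ} [Fact p.Prime]
  (hA : A.LiesOverPrime p) (hpM : ¬ p ∣ M) (hM : 1 < M)

local notation "kA" => IsLocalRing.ResidueField A

attribute [local instance] Igusa.algebraF1 algebraResT moduleResT

/-- **the Gauss datum of `X₁(M)`** (inert extension of the level-one datum along `τ_(0,1)`) -/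
def datumT : GaussDatum A (FB1 M) ↥(FResT A M) :=
  haveI := isScalarTower_F1 M
  haveI := isScalarTower_ResT A M
  (inertInputT hA hpM hM).datum

theorem datumT_eq :
    haveI := isScalarTower_F1 M
    haveI := isScalarTower_ResT A M
    datumT hA hpM hM = (inertInputT hA hpM hM).datum := rfl

/-- **`datumT` is the coefficientwise reduction of `q`-expansions** -/
theorem seriesCompat_datumT :
    SeriesCompat (datumT hA hpM hM) (inclQ (F1 M)) (inclK (FResT A M)) := by
  haveI := isScalarTower_F1 M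
  haveI := isScalarTower_ResT A M
  refine seriesCompat_inert (inertInputT hA hpM hM)
    (seriesCompat_gaussDatum A 1 (not_dvd_one_of_prime (ℓ := p)) hA)
    (inclQ (F1 M)) (inclK (FResT A M)) (fun x => coe_inclF1 M x)
    (fun x => coe_algebraMap_ResT A M x) (tauqA hA hpM 1) ?_ ?_
  · rw [inertInputT_t, inclQ_apply, coe_tauBar, toL_tauqA]
  · rw [inertInputT_tk, inclK_apply, coe_tauResT, toK_tauqA]

end Datum

end Fermat.Agent.S48lib.X1.Equiv
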